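/-
S33 / block (ALG) (helper10): THE ORDINARY CONDITION FROM AN OPERATOR IDENTITY.

`A` a local ring, `ρ : GaloisRepAdic A`, `p` a prime number.  Suppose that for every place `P | p` of
`ℚ̄` there is `σ₀ ∈ I_P` with `a - 1 ∈ Aˣ`, `a := det ρ(σ₀)`, such that
  `(ρ σ₀ - a) (ρ σ' - 1) = 0` for every `σ' ∈ I_P`.
Then `ρ.IsOrdinaryAt p` (frozen definition): the line is `L := range (ρ σ₀ - 1) = ker (ρ σ₀ - a)`.

* `exists_basis_range_eq_span` : the linear algebra: `s` an automorphism of a free module `V` of rank
  `2` over a local ring, `a := det s`, `a - 1` a unit, `(s - a)(s - 1) = 0`  ⟹  there is a basis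
  `b` of `V` with `range (s - 1) = A ∙ b 0` (and `ker (s - a) = range (s - 1)`).
* `isOrdinaryAt_of_forall_omega` : the statement above.
* `omega_eq_zero_of_isOrdinaryAt` : the converse (for `σ', τ ∈ I_P`).
-/
import Mathlib
import Fermat.Prelude.Def_GaloisRep_LocalConditions
import Fermat.Agent.S56.Places.Dict

set_option autoImplicit false
set_option linter.unusedSectionVars false

namespace Fermat.Agent.S33.Alg

open Module Fermat.Agent.S56.Places.Dict

local notation "Qbar" => AlgebraicClosure ℚ
local notation "Γ" => (AlgebraicClosure ℚ ≃ₐ[ℚ] AlgebraicClosure ℚ)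

/-! ### Linear algebra over a local ring -/

section LinAlg

variable {A V : Type} [CommRing A] [IsLocalRing A] [AddCommGroup V] [Module A V]
  [Module.Free A V] [Module.Finite A V]

/-- a direct summand of a finite free module over a local ring is finite free -/
theorem free_finite_of_isCompl (p q : Submodule A V) (h : IsCompl p q) :
    Module.Free A p ∧ Module.Finite A p := by
  have hfin : Module.Finite A p :=
    Module.Finite.of_surjective (Submodule.projectionOnto p q h)
      (Submodule.projectionOnto_surjective h)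
  have hproj : Module.Projective A p :=
    Module.Projective.of_split p.subtype (Submodule.projectionOnto p q h) (by
      apply LinearMap.ext
      intro x
      exact Submodule.projectionOnto_apply_left h x)
  exact ⟨Module.free_of_flat_of_isLocalRing, hfin⟩

/-- **The eigen-decomposition**: `s` invertible on a free module of rank `2` over a local ring,
`a = det s`, `a - 1` a unit, `(s - a)(s - 1) = 0`: then `range (s - 1)` is spanned by the first
vector of a basis, and equals `ker (s - a)`. -/
theorem exists_basis_range_eq_span (hV : finrank A V = 2) (s : Module.End A V) (hs : IsUnit s)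
    (ha : IsUnit (LinearMap.det s - 1))
    (hΩ : (s - LinearMap.det s • (1 : Module.End A V)) * (s - 1) = 0) :
    ∃ b : Module.Basis (Fin 2) A V,
      LinearMap.range (s - 1) = Submodule.span A {b 0} ∧
      LinearMap.ker (s - LinearMap.det s • (1 : Module.End A V)) = LinearMap.range (s - 1) := by
  classical
  have hnt : Nontrivial A := inferInstance
  set a : A := LinearMap.det s with ha_def
  obtain ⟨u, hu⟩ := ha
  -- the idempotent
  set e : Module.End A V := (↑u⁻¹ : A) • (s - 1) with he_def
  have hcomm : (s - 1) * (s - a • (1 : Module.End A V)) = 0 := by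
    have : (s - 1) * (s - a • (1 : Module.End A V)) = (s - a • (1 : Module.End A V)) * (s - 1) := by
      simp only [mul_sub, sub_mul, mul_one, one_mul, mul_smul_comm, smul_mul_assoc, smul_sub]
      abel
    rw [this, hΩ]
  have hsq : (s - 1) * (s - 1) = a • (s - 1) - (s - 1) := by
    have h1 : (s - 1) * (s - 1) = (s - 1) * (s - a • (1 : Module.End A V)) +
        (a • (s - 1) - (s - 1)) := by
      simp only [mul_sub, sub_mul, mul_one, one_mul, mul_smul_comm, smul_sub]
      abel
    rw [h1, hcomm, zero_add]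
  have hsq' : (s - 1) * (s - 1) = (u : A) • (s - 1) := by
    rw [hsq, hu, sub_smul, one_smul]
  have hidem : IsIdempotentElem e := by
    show e * e = e
    rw [he_def, smul_mul_smul_comm, hsq', smul_smul, mul_assoc, Units.inv_mul, mul_one]
  have hrange : LinearMap.range e = LinearMap.range (s - 1) := by
    apply le_antisymm
    · rintro _ ⟨x, rfl⟩
      exact ⟨(↑u⁻¹ : A) • x, by simp [he_def]⟩
    · rintro _ ⟨x, rfl⟩
      refine ⟨(u : A) • x, ?_⟩
      simp [he_def, smul_smul]
  have hcompl : IsCompl (LinearMap.range e) (LinearMap.ker e) :=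
    LinearMap.IsIdempotentElem.isCompl hidem
  obtain ⟨hfp, hfinp⟩ := free_finite_of_isCompl _ _ hcompl
  obtain ⟨hfq, hfinq⟩ := free_finite_of_isCompl _ _ hcompl.symm
  -- `s` acts by `a` on `range e` and by `1` on `ker e`
  have hs_range : ∀ x ∈ LinearMap.range e, s x = a • x := by
    rintro _ ⟨x, rfl⟩
    have := LinearMap.congr_fun hΩ ((↑u⁻¹ : A) • x)
    simp only [Module.End.mul_apply, LinearMap.sub_apply, LinearMap.smul_apply,
      Module.End.one_apply, LinearMap.zero_apply, map_smul] at this
    simp only [he_def, LinearMap.smul_apply, LinearMap.sub_apply, Module.End.one_apply, map_smul]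
    have h2 : s (s x - x) - a • (s x - x) = 0 := by
      have h3 : (u : A) • ((↑u⁻¹ : A) • (s (s x - x) - a • (s x - x))) = (u : A) • ((↑u⁻¹ : A) • 0) := by
        rw [this]
      rw [smul_smul, smul_smul, Units.mul_inv, one_smul, one_smul] at h3
      exact h3
    rw [sub_eq_zero] at h2
    rw [h2, smul_comm]
  have hs_ker : ∀ x ∈ LinearMap.ker e, s x = x := by
    intro x hx
    have h0 : e x = 0 := hx
    simp only [he_def, LinearMap.smul_apply, LinearMap.sub_apply, Module.End.one_apply] at h0
    have h1 : (u : A) • ((↑u⁻¹ : A) • (s x - x)) = 0 := by rw [h0, smul_zero]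
    rw [smul_smul, Units.mul_inv, one_smul] at h1
    exact sub_eq_zero.1 h1
  -- the ranks
  set E := Submodule.prodEquivOfIsCompl _ _ hcompl with hE
  have hrk : finrank A (LinearMap.range e) + finrank A (LinearMap.ker e) = 2 := by
    rw [← hV, ← E.finrank_eq, Module.finrank_prod]
  have hdet : a = a ^ finrank A (LinearMap.range e) := by
    have hconj : s = (E : _ →ₗ[A] V) ∘ₗ
        (LinearMap.prodMap (a • (LinearMap.id : LinearMap.range e →ₗ[A] LinearMap.range e))
          (LinearMap.id : LinearMap.ker e →ₗ[A] LinearMap.ker e)) ∘ₗ (E.symm : V →ₗ[A] _) := by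
      apply LinearMap.ext
      intro x
      obtain ⟨⟨y, z⟩, rfl⟩ := E.surjective x
      simp only [LinearMap.comp_apply, LinearEquiv.coe_coe, LinearEquiv.symm_apply_apply,
        LinearMap.prodMap_apply, LinearMap.smul_apply, LinearMap.id_apply]
      simp only [hE, Submodule.coe_prodEquivOfIsCompl', Submodule.coe_smul, map_add]
      rw [hs_range y y.2, hs_ker z z.2]
    have h1 : LinearMap.det s = LinearMap.det
        (LinearMap.prodMap (a • (LinearMap.id : LinearMap.range e →ₗ[A] LinearMap.range e))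
          (LinearMap.id : LinearMap.ker e →ₗ[A] LinearMap.ker e)) := by
      conv_lhs => rw [hconj]
      exact LinearMap.det_conj _ E
    rw [LinearMap.det_prodMap, LinearMap.det_smul, LinearMap.det_id, LinearMap.det_id, mul_one,
      mul_one] at h1
    exact h1
  have ha_unit : IsUnit a := by
    rw [ha_def]
    exact hs.map (LinearMap.det : Module.End A V →* A)
  have ha1 : a - 1 ≠ 0 := by
    rw [← hu]
    exact u.ne_zero
  have hm : finrank A (LinearMap.range e) = 1 := by
    have hle : finrank A (LinearMap.range e) ≤ 2 := by omega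
    interval_cases hfr : finrank A (LinearMap.range e)
    · exfalso
      rw [pow_zero] at hdet
      exact ha1 (by rw [hdet, sub_self])
    · rfl
    · exfalso
      have h2 : a * (a - 1) = 0 := by
        have : a * (a - 1) = a ^ 2 - a := by ring
        rw [this, ← hdet, sub_self]
      have := ha_unit.mul_right_eq_zero.1 h2
      exact ha1 this
  have hn : finrank A (LinearMap.ker e) = 1 := by omega
  -- the basis
  let bp : Module.Basis (Fin 1) A (LinearMap.range e) :=
    Module.finBasisOfFinrankEq A (LinearMap.range e) hm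
  let bq : Module.Basis (Fin 1) A (LinearMap.ker e) :=
    Module.finBasisOfFinrankEq A (LinearMap.ker e) hn
  let b : Module.Basis (Fin 2) A V :=
    ((bp.prod bq).map E).reindex (finSumFinEquiv (m := 1) (n := 1))
  have hb0 : b 0 = (bp 0 : V) := by
    have h0 : (finSumFinEquiv (m := 1) (n := 1)).symm 0 = Sum.inl 0 := by
      rw [Equiv.symm_apply_eq]
      rfl
    show ((bp.prod bq).map E).reindex _ 0 = _
    rw [Module.Basis.reindex_apply, h0, Module.Basis.map_apply, Module.Basis.prod_apply]
    simp [hE, Submodule.coe_prodEquivOfIsCompl']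
  refine ⟨b, ?_, ?_⟩
  · rw [← hrange, hb0]
    apply le_antisymm
    · intro x hx
      have hx' : (⟨x, hx⟩ : LinearMap.range e) ∈ Submodule.span A (Set.range bp) := by
        rw [bp.span_eq]
        trivial
      rw [Set.range_unique, Submodule.mem_span_singleton] at hx'
      obtain ⟨c, hc⟩ := hx'
      rw [Submodule.mem_span_singleton]
      refine ⟨c, ?_⟩
      have := congrArg (Subtype.val) hc
      simpa using this
    · rw [Submodule.span_singleton_le_iff_mem]
      exact (bp 0).2
  · rw [← hrange]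
    apply le_antisymm
    · intro x hx
      have hx' : s x = a • x := by
        have : (s - a • (1 : Module.End A V)) x = 0 := hx
        simpa [sub_eq_zero] using this
      refine ⟨x, ?_⟩
      simp only [he_def, LinearMap.smul_apply, LinearMap.sub_apply, Module.End.one_apply]
      have h5 : a • x - x = (u : A) • x := by rw [hu, sub_smul, one_smul]
      rw [hx', h5, smul_smul, Units.inv_mul, one_smul]
    · intro x hx
      have := hs_range x hx
      show (s - a • (1 : Module.End A V)) x = 0
      simp [this]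

end LinAlg

/-! ### The ordinary condition -/

section Ord

variable {A : Type} [CommRing A] [IsLocalRing A] (ρ : GaloisRepAdic A) (p : ℕ)

/-- **(ALG)**: the ordinary condition at `p` from the operator identity
`(ρ σ₀ - det ρ σ₀)(ρ σ' - 1) = 0` (`σ' ∈ I_P`) for one `σ₀ ∈ I_P` with `det ρ σ₀ - 1` a unit. -/
theorem isOrdinaryAt_of_forall_omega
    (h : ∀ P : ValuationSubring Qbar, P.LiesOverPrime p →
      ∃ σ₀ ∈ P.inertiaSubgroupIn ℚ, IsUnit (LinearMap.det (ρ.ρ σ₀) - 1) ∧
        ∀ σ' ∈ P.inertiaSubgroupIn ℚ,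
          (ρ.ρ σ₀ - LinearMap.det (ρ.ρ σ₀) • (1 : Module.End A ρ.V)) * (ρ.ρ σ' - 1) = 0) :
    ρ.IsOrdinaryAt p := by
  intro P hP
  obtain ⟨σ₀, hσ₀, hu, hΩ⟩ := h P hP
  have hunit : IsUnit (ρ.ρ σ₀) :=
    ⟨⟨ρ.ρ σ₀, ρ.ρ σ₀⁻¹, by rw [← map_mul, mul_inv_cancel, map_one],
      by rw [← map_mul, inv_mul_cancel, map_one]⟩, rfl⟩
  obtain ⟨b, hb, hker⟩ := exists_basis_range_eq_span ρ.finrank_eq (ρ.ρ σ₀) hunit hu (hΩ σ₀ hσ₀)
  have hmem : ∀ σ' ∈ P.inertiaSubgroupIn ℚ, ∀ v : ρ.V,
      ρ.ρ σ' v - v ∈ LinearMap.range (ρ.ρ σ₀ - 1) := by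
    intro σ' hσ' v
    rw [← hker]
    have := LinearMap.congr_fun (hΩ σ' hσ') v
    simpa using this
  refine ⟨Submodule.span A {b 0}, ⟨b, rfl⟩, ?_, ?_⟩
  · intro g hg v hv
    rw [← hb] at hv ⊢
    obtain ⟨w, rfl⟩ := hv
    have hconj := conj_mem_inertia_of_mem_decomposition P hg hσ₀
    have key : ρ.ρ g ((ρ.ρ σ₀ - 1) w) = ρ.ρ (g * σ₀ * g⁻¹) (ρ.ρ g w) - ρ.ρ g w := by
      have h1 : ρ.ρ (g * σ₀ * g⁻¹) (ρ.ρ g w) = ρ.ρ g (ρ.ρ σ₀ w) := by
        rw [← Module.End.mul_apply, ← map_mul, inv_mul_cancel_right, map_mul,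
          Module.End.mul_apply]
      rw [h1]
      simp
    rw [key]
    exact hmem _ hconj _
  · intro σ hσ v
    rw [← hb]
    exact hmem σ hσ v

/-- the converse: an ordinary representation satisfies the operator identity -/
theorem omega_eq_zero_of_isOrdinaryAt (h : ρ.IsOrdinaryAt p) (P : ValuationSubring Qbar)
    (hP : P.LiesOverPrime p) {σ' τ : Γ} (hσ' : σ' ∈ P.inertiaSubgroupIn ℚ)
    (hτ : τ ∈ P.inertiaSubgroupIn ℚ) :
    (ρ.ρ τ - LinearMap.det (ρ.ρ τ) • (1 : Module.End A ρ.V)) * (ρ.ρ σ' - 1) = 0 := by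
  classical
  obtain ⟨L, ⟨b, rfl⟩, -, hI⟩ := h P hP
  -- the matrix of `ρ τ` in the basis `b` is upper triangular with `1` in the lower right corner
  have hτ0 : ∀ σ ∈ P.inertiaSubgroupIn ℚ, ∃ c : A, ρ.ρ σ (b 0) = c • b 0 := by
    intro σ hσ
    have := hI σ hσ (b 0)
    rw [Submodule.mem_span_singleton] at this
    obtain ⟨c, hc⟩ := this
    exact ⟨c + 1, by rw [add_smul, one_smul, hc]; abel⟩
  obtain ⟨c, hc⟩ := hτ0 τ hτ
  have hτ1 := hI τ hτ (b 1)
  rw [Submodule.mem_span_singleton] at hτ1
  obtain ⟨d, hd⟩ := hτ1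
  have hdet : LinearMap.det (ρ.ρ τ) = c := by
    rw [← LinearMap.det_toMatrix b, Matrix.det_fin_two]
    have h00 : LinearMap.toMatrix b b (ρ.ρ τ) 0 0 = c := by
      rw [LinearMap.toMatrix_apply, hc]; simp
    have h10 : LinearMap.toMatrix b b (ρ.ρ τ) 1 0 = 0 := by
      rw [LinearMap.toMatrix_apply, hc]; simp
    have h11 : LinearMap.toMatrix b b (ρ.ρ τ) 1 1 = 1 := by
      have : ρ.ρ τ (b 1) = d • b 0 + b 1 := by rw [hd]; abel
      rw [LinearMap.toMatrix_apply, this]; simp
    rw [h00, h10, h11]; ring
  apply LinearMap.ext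
  intro v
  have hv := hI σ' hσ' v
  rw [Submodule.mem_span_singleton] at hv
  obtain ⟨t, ht⟩ := hv
  simp only [Module.End.mul_apply, LinearMap.sub_apply, Module.End.one_apply, LinearMap.smul_apply,
    LinearMap.zero_apply]
  rw [← ht, map_smul, hc, hdet, smul_comm, sub_self]

end Ord

end Fermat.Agent.S33.Alg
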